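/-
`LamS`: the trace functional `lam : LamS p S` of the Poitou–Tate machine over `ℚ`, built from a
family of local functionals `inv q` (all primes `q`) satisfying reciprocity at every finite level.

This is the instantiation of `Arith/LambdaStar.exists_lam'` at the Prelude cochains:

* global cochains: functions on `G_ℚ = Gal(ℚ̄/ℚ)` with values in `μ_p = muRep (cycloChar p)`;
* `lev2 p T`  : global 2-cochains of level `T` (constant modulo `Gal(ℚ̄/F)`, `F` finite and
                unramified outside `T`), i.e. `Abs.C2 (globalLevel T)`;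
* local cochains at `q`: functions on `primeLocalGaloisGroup q`, restriction along
  `primeLocalToGlobal q`;
* `ur2 p q`   : the unramified local 2-cochains at `q` (constant modulo the preimage of
                `Gal(ℚ̄/F)`, `F` finite and unramified outside some finite `T ∌ q`).

Hypotheses on `inv` (supplied by the local/reciprocity packages):
* `hcob` : `inv q` kills `d` of LEVEL-CONSTANT local 1-cochains (nothing is assumed about
           coboundaries of discontinuous cochains);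
* `hur`  : `inv q` kills unramified 2-cocycles for `q ∉ S` (follows from `hcob` and
           "unramified 2-cocycles are coboundaries of level-constant cochains": `hur_of_primitive`);
* `hrec` : reciprocity `∑_{q ∈ T} inv q (res_q z) = 0` for level-`T` global 2-cocycles `z`, `T ⊇ S`.

Output (`exists_lamS`): `lam0` on all pairs (global 3-cochain, local 2-cochains on `S`) with the
`EvalCup.Star` property, and `lam : LamS p S` (a functional on `Abs.Qc3`) induced by `lam0`,
whose restriction to `Abs.Cc3` is `lam0`.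
-/
import Fermat.Agent.S55.Abs.Bridge
import Fermat.Agent.S55.Arith.LambdaStar
import Fermat.Agent.S55.Base.EvalCup

set_option autoImplicit false

open CategoryTheory groupCohomology ExtCitation

namespace Fermat.Agent.S55.Trace.LamS

open Fermat.Agent.S55.Abs

variable (p : ℕ) [Fact p.Prime]

/-- `μ_p` as a representation of `G_ℚ`. -/
noncomputable abbrev mu : Rep.{0} (ZMod p) GQ := muRep (cycloChar p)

/-- `μ_p` as a representation of the local group at `q`. -/
noncomputable abbrev muLoc (q : Nat.Primes) : Rep.{0} (ZMod p) (primeLocalGaloisGroup q) :=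
  Rep.res (primeLocalToGlobal q) (mu p)

/-- Global 2-cochains of level `T`. -/
noncomputable def lev2 (T : Finset Nat.Primes) : Submodule (ZMod p) (GQ × GQ → mu p) :=
  C2 (globalLevel T) (mu p)

theorem mem_lev2_iff (T : Finset Nat.Primes) (f : GQ × GQ → mu p) :
    f ∈ lev2 p T ↔ IsLevelConstantS₂ T f :=
  (isLevelConstantS₂_iff T f).symm

theorem lev2_mono {T T' : Finset Nat.Primes} (h : T ⊆ T') : lev2 p T ≤ lev2 p T' := by
  rintro f ⟨U, ⟨F, hF, rfl⟩, hf⟩
  exact ⟨_, ⟨F, hF.mono h, rfl⟩, hf⟩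

/-- A local 1-cochain at `q` is unramified: constant modulo the preimage of `Gal(ℚ̄/F)` for a
finite `F` unramified outside a finite set of primes not containing `q`. -/
def IsUr₁ (q : Nat.Primes) {X : Type*} (f : primeLocalGaloisGroup q → X) : Prop :=
  ∃ T : Finset Nat.Primes, q ∉ T ∧ ∃ F : IntermediateField ℚ (AlgebraicClosure ℚ),
    F.IsUnramifiedOutside T ∧
      ∀ g s, primeLocalToGlobal q s ∈ F.fixingSubgroup → f (g * s) = f g

/-- A local 2-cochain at `q` is unramified. -/
def IsUr₂ (q : Nat.Primes) {X : Type*}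
    (f : primeLocalGaloisGroup q × primeLocalGaloisGroup q → X) : Prop :=
  ∃ T : Finset Nat.Primes, q ∉ T ∧ ∃ F : IntermediateField ℚ (AlgebraicClosure ℚ),
    F.IsUnramifiedOutside T ∧
      ∀ g g' s s', primeLocalToGlobal q s ∈ F.fixingSubgroup →
        primeLocalToGlobal q s' ∈ F.fixingSubgroup → f (g * s, g' * s') = f (g, g')

theorem IsUr₁.isLev₁ {q : Nat.Primes} {X : Type*} {f : primeLocalGaloisGroup q → X}
    (hf : IsUr₁ q f) : IsLev₁ (localLevel (primeLocalToGlobal q)) f := by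
  obtain ⟨T, -, F, hF, h⟩ := hf
  exact ⟨_, ⟨F, hF.1, rfl⟩, fun g s hs => h g s hs⟩

theorem IsUr₂.isLev₂ {q : Nat.Primes} {X : Type*}
    {f : primeLocalGaloisGroup q × primeLocalGaloisGroup q → X}
    (hf : IsUr₂ q f) : IsLev₂ (localLevel (primeLocalToGlobal q)) f := by
  obtain ⟨T, -, F, hF, h⟩ := hf
  exact ⟨_, ⟨F, hF.1, rfl⟩, fun g g' s s' hs hs' => h g g' s s' hs hs'⟩

theorem IsUr₂.add {q : Nat.Primes} {X : Type*} [Add X]
    {f f' : primeLocalGaloisGroup q × primeLocalGaloisGroup q → X}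
    (hf : IsUr₂ q f) (hf' : IsUr₂ q f') : IsUr₂ q (f + f') := by
  classical
  obtain ⟨T, hT, F, hF, h⟩ := hf
  obtain ⟨T', hT', F', hF', h'⟩ := hf'
  refine ⟨T ∪ T', ?_, F ⊔ F',
    (hF.mono Finset.subset_union_left).sup (hF'.mono Finset.subset_union_right), ?_⟩
  · rw [Finset.mem_union]
    rintro (h1 | h1)
    · exact hT h1
    · exact hT' h1
  · intro g g' s s' hs hs'
    rw [IntermediateField.fixingSubgroup_sup] at hs hs'
    simp only [Pi.add_apply]
    rw [h g g' s s' hs.1 hs'.1, h' g g' s s' hs.2 hs'.2]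

theorem IsUr₂.comp {q : Nat.Primes} {X Y : Type*}
    {f : primeLocalGaloisGroup q × primeLocalGaloisGroup q → X}
    (hf : IsUr₂ q f) (φ : X → Y) : IsUr₂ q (φ ∘ f) := by
  obtain ⟨T, hT, F, hF, h⟩ := hf
  exact ⟨T, hT, F, hF, fun g g' s s' hs hs' => by
    simp only [Function.comp_apply, h g g' s s' hs hs']⟩

theorem isUr₂_const (q : Nat.Primes) {X : Type*} (x : X) :
    IsUr₂ q (fun _ : primeLocalGaloisGroup q × primeLocalGaloisGroup q => x) :=
  ⟨∅, Finset.notMem_empty q, ⊥, IntermediateField.isUnramifiedOutside_bot ∅,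
    fun _ _ _ _ _ _ => rfl⟩

/-- The unramified local 2-cochains at `q`. -/
noncomputable def ur2 (q : Nat.Primes) :
    Submodule (ZMod p) (primeLocalGaloisGroup q × primeLocalGaloisGroup q → muLoc p q) where
  carrier := {f | IsUr₂ q f}
  add_mem' hf hf' := hf.add hf'
  zero_mem' := isUr₂_const q (0 : muLoc p q)
  smul_mem' c _ hf := hf.comp (c • ·)

theorem mem_ur2_iff (q : Nat.Primes)
    (f : primeLocalGaloisGroup q × primeLocalGaloisGroup q → muLoc p q) :
    f ∈ ur2 p q ↔ IsUr₂ q f := Iff.rfl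

/-- The restriction to `q ∉ T` of a global 2-cochain of level `T` is unramified. -/
theorem res₂_mem_ur2 {T : Finset Nat.Primes} {q : Nat.Primes} (hq : q ∉ T)
    {e : GQ × GQ → mu p} (he : e ∈ lev2 p T) :
    Base.EvalCup.res₂ (primeLocalToGlobal q) (mu p) e ∈ ur2 p q := by
  obtain ⟨U, ⟨F, hF, rfl⟩, h⟩ := he
  refine ⟨T, hq, F, hF, fun g g' s s' hs hs' => ?_⟩
  show e (primeLocalToGlobal q (g * s), primeLocalToGlobal q (g' * s'))
    = e (primeLocalToGlobal q g, primeLocalToGlobal q g')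
  rw [map_mul, map_mul]
  exact h _ _ _ _ hs hs'

/-- `hur` from "unramified 2-cocycles outside `S` are coboundaries of level-constant cochains". -/
theorem hur_of_primitive (S : Finset Nat.Primes)
    (inv : ∀ q : Nat.Primes,
      (primeLocalGaloisGroup q × primeLocalGaloisGroup q → muLoc p q) →ₗ[ZMod p] ZMod p)
    (hcob : ∀ (q : Nat.Primes), ∀ f ∈ C1 (localLevel (primeLocalToGlobal q)) (muLoc p q),
      inv q ((d₁₂ (muLoc p q)).hom f) = 0)
    (hUR : ∀ q : Nat.Primes, q ∉ S → ∀ z ∈ ur2 p q, (d₂₃ (muLoc p q)).hom z = 0 →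
      ∃ x ∈ C1 (localLevel (primeLocalToGlobal q)) (muLoc p q), (d₁₂ (muLoc p q)).hom x = z) :
    ∀ q : Nat.Primes, q ∉ S → ∀ z ∈ ur2 p q, (d₂₃ (muLoc p q)).hom z = 0 → inv q z = 0 := by
  intro q hq z hz hdz
  obtain ⟨x, hx, rfl⟩ := hUR q hq z hz hdz
  exact hcob q x hx

/-- **The trace functional.** -/
theorem exists_lamS (S : Finset Nat.Primes)
    (inv : ∀ q : Nat.Primes,
      (primeLocalGaloisGroup q × primeLocalGaloisGroup q → muLoc p q) →ₗ[ZMod p] ZMod p)
    (hcob : ∀ (q : Nat.Primes), ∀ f ∈ C1 (localLevel (primeLocalToGlobal q)) (muLoc p q),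
      inv q ((d₁₂ (muLoc p q)).hom f) = 0)
    (hur : ∀ q : Nat.Primes, q ∉ S → ∀ z ∈ ur2 p q, (d₂₃ (muLoc p q)).hom z = 0 → inv q z = 0)
    (hrec : ∀ T : Finset Nat.Primes, S ⊆ T → ∀ z ∈ lev2 p T, (d₂₃ (mu p)).hom z = 0 →
      ∑ q ∈ T, inv q (Base.EvalCup.res₂ (primeLocalToGlobal q) (mu p) z) = 0) :
    ∃ (lam0 : ((GQ × GQ × GQ → mu p) ×
          (∀ v : ↥S, primeLocalGaloisGroup v × primeLocalGaloisGroup v → muLoc p v))
          →ₗ[ZMod p] ZMod p) (lam : LamS p S),
      Base.EvalCup.Star (fun q : Nat.Primes => primeLocalToGlobal q) S lam0 inv (lev2 p) (ur2 p) ∧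
      (∀ x : ↥(Cc3 (globalLevel S) (fun q : ↥S => primeLocalToGlobal q.1)
          (fun q : ↥S => localLevel (primeLocalToGlobal q.1)) (mu p)),
        lam (Submodule.Quotient.mk x) = lam0 x.1) ∧
      (∀ B : ∀ v : ↥S, primeLocalGaloisGroup v × primeLocalGaloisGroup v → muLoc p v,
        lam0 (0, B) = ∑ v : ↥S, inv v (B v)) ∧
      (∀ (e : GQ × GQ → mu p)
        (B : ∀ v : ↥S, primeLocalGaloisGroup v × primeLocalGaloisGroup v → muLoc p v),
        e ∈ lev2 p S → lam0 ((d₂₃ (mu p)).hom e, B)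
          = ∑ v : ↥S, inv v (B v - Base.EvalCup.res₂ (primeLocalToGlobal v) (mu p) e)) := by
  obtain ⟨lam0, hstar, h0, hS⟩ := Arith.LambdaStar.exists_lam' (k := ZMod p) (ι := Nat.Primes)
    (S := S) (d := (d₂₃ (mu p)).hom) (C2 := lev2 p)
    (dl := fun q => (d₂₃ (muLoc p q)).hom)
    (r2 := fun q => Base.EvalCup.res₂ (primeLocalToGlobal q) (mu p))
    (r3 := fun q => Base.EvalCup.res₃ (primeLocalToGlobal q) (mu p))
    (inv := inv) (U2 := ur2 p)
    (fun h => lev2_mono p h)
    (fun q x => Base.EvalCup.d₂₃_res (primeLocalToGlobal q) (mu p) x)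
    (fun T q hq e he => res₂_mem_ur2 p hq he)
    hur hrec
  have hker : (Bc3 (globalLevel S) (fun q : ↥S => primeLocalToGlobal q.1)
        (fun q : ↥S => localLevel (primeLocalToGlobal q.1)) (mu p)).comap
        (Cc3 (globalLevel S) (fun q : ↥S => primeLocalToGlobal q.1)
          (fun q : ↥S => localLevel (primeLocalToGlobal q.1)) (mu p)).subtype
      ≤ LinearMap.ker (lam0 ∘ₗ (Cc3 (globalLevel S) (fun q : ↥S => primeLocalToGlobal q.1)
          (fun q : ↥S => localLevel (primeLocalToGlobal q.1)) (mu p)).subtype) := by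
    rintro ⟨x, hx⟩ hxB
    obtain ⟨⟨e, f⟩, ⟨he, hf⟩, hef⟩ := hxB
    rw [LinearMap.mem_ker]
    show lam0 x = 0
    have hx' : x = ((d₂₃ (mu p)).hom e,
        fun v : ↥S => Base.EvalCup.res₂ (primeLocalToGlobal v) (mu p) e
          - (d₁₂ (muLoc p v)).hom (f v)) := hef.symm
    rw [hx', hS e _ he]
    refine Finset.sum_eq_zero fun v _ => ?_
    have hfv : f v ∈ C1 (localLevel (primeLocalToGlobal v)) (muLoc p v) := hf v (Set.mem_univ v)
    rw [sub_sub_cancel_left, map_neg, hcob v (f v) hfv, neg_zero]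
  refine ⟨lam0, Submodule.liftQ _ (lam0 ∘ₗ (Cc3 (globalLevel S)
      (fun q : ↥S => primeLocalToGlobal q.1)
      (fun q : ↥S => localLevel (primeLocalToGlobal q.1)) (mu p)).subtype) hker,
    hstar, fun x => rfl, h0, hS⟩

/-- Variant of `exists_lamS` with the hypothesis "unramified 2-cocycles outside `S` are
coboundaries of level-constant local cochains" in place of `hur`. -/
theorem exists_lamS' (S : Finset Nat.Primes)
    (inv : ∀ q : Nat.Primes,
      (primeLocalGaloisGroup q × primeLocalGaloisGroup q → muLoc p q) →ₗ[ZMod p] ZMod p)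
    (hcob : ∀ (q : Nat.Primes), ∀ f ∈ C1 (localLevel (primeLocalToGlobal q)) (muLoc p q),
      inv q ((d₁₂ (muLoc p q)).hom f) = 0)
    (hUR : ∀ q : Nat.Primes, q ∉ S → ∀ z ∈ ur2 p q, (d₂₃ (muLoc p q)).hom z = 0 →
      ∃ x ∈ C1 (localLevel (primeLocalToGlobal q)) (muLoc p q), (d₁₂ (muLoc p q)).hom x = z)
    (hrec : ∀ T : Finset Nat.Primes, S ⊆ T → ∀ z ∈ lev2 p T, (d₂₃ (mu p)).hom z = 0 →
      ∑ q ∈ T, inv q (Base.EvalCup.res₂ (primeLocalToGlobal q) (mu p) z) = 0) :
    ∃ (lam0 : ((GQ × GQ × GQ → mu p) ×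
          (∀ v : ↥S, primeLocalGaloisGroup v × primeLocalGaloisGroup v → muLoc p v))
          →ₗ[ZMod p] ZMod p) (lam : LamS p S),
      Base.EvalCup.Star (fun q : Nat.Primes => primeLocalToGlobal q) S lam0 inv (lev2 p) (ur2 p) ∧
      (∀ x : ↥(Cc3 (globalLevel S) (fun q : ↥S => primeLocalToGlobal q.1)
          (fun q : ↥S => localLevel (primeLocalToGlobal q.1)) (mu p)),
        lam (Submodule.Quotient.mk x) = lam0 x.1) ∧
      (∀ B : ∀ v : ↥S, primeLocalGaloisGroup v × primeLocalGaloisGroup v → muLoc p v,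
        lam0 (0, B) = ∑ v : ↥S, inv v (B v)) ∧
      (∀ (e : GQ × GQ → mu p)
        (B : ∀ v : ↥S, primeLocalGaloisGroup v × primeLocalGaloisGroup v → muLoc p v),
        e ∈ lev2 p S → lam0 ((d₂₃ (mu p)).hom e, B)
          = ∑ v : ↥S, inv v (B v - Base.EvalCup.res₂ (primeLocalToGlobal v) (mu p) e)) :=
  exists_lamS p S inv hcob (hur_of_primitive p S inv hcob hUR) hrec

/-- The local invariants `Abs.invOf lam v` of the machine are the given `inv v` (`v ∈ S`). -/
theorem invOf_eq (S : Finset Nat.Primes)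
    (inv : ∀ q : Nat.Primes,
      (primeLocalGaloisGroup q × primeLocalGaloisGroup q → muLoc p q) →ₗ[ZMod p] ZMod p)
    (lam0 : ((GQ × GQ × GQ → mu p) ×
          (∀ v : ↥S, primeLocalGaloisGroup v × primeLocalGaloisGroup v → muLoc p v))
          →ₗ[ZMod p] ZMod p) (lam : LamS p S)
    (hlam : ∀ x : ↥(Cc3 (globalLevel S) (fun q : ↥S => primeLocalToGlobal q.1)
          (fun q : ↥S => localLevel (primeLocalToGlobal q.1)) (mu p)),
        lam (Submodule.Quotient.mk x) = lam0 x.1)
    (h0 : ∀ B : ∀ v : ↥S, primeLocalGaloisGroup v × primeLocalGaloisGroup v → muLoc p v,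
        lam0 (0, B) = ∑ v : ↥S, inv v (B v))
    (v : ↥S) (z : primeLocalGaloisGroup v × primeLocalGaloisGroup v → muLoc p v)
    (hz : z ∈ Z2 (localLevel (primeLocalToGlobal v)) (muLoc p v)) :
    invOf (globalLevel S) (fun q : ↥S => primeLocalToGlobal q.1)
        (fun q : ↥S => localLevel (primeLocalToGlobal q.1)) (mu p) lam v
        (Submodule.Quotient.mk ⟨z, hz⟩) = inv v z := by
  have h1 : invOf (globalLevel S) (fun q : ↥S => primeLocalToGlobal q.1)
        (fun q : ↥S => localLevel (primeLocalToGlobal q.1)) (mu p) lam v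
        (Submodule.Quotient.mk ⟨z, hz⟩)
      = lam0 (0, (Pi.single v z : ∀ w : ↥S,
          primeLocalGaloisGroup w × primeLocalGaloisGroup w → muLoc p w)) := by
    show lam (Submodule.Quotient.mk _) = _
    rw [hlam]
    rfl
  rw [h1, h0, Finset.sum_eq_single v]
  · rw [Pi.single_eq_same]
  · intro w _ hw
    rw [Pi.single_eq_of_ne hw, map_zero]
  · intro hv
    exact absurd (Finset.mem_univ v) hv

end Fermat.Agent.S55.Trace.LamS
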