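/-
`LamClosed`: the trace functional `lam : LamS p S` from a reciprocity family alone.

`LamS.exists_lamS'` needs "unramified local 2-cocycles at `q ∉ S` are coboundaries of
level-constant local 1-cochains" for the coefficient module `μ_p`.  This is
`Arith/UnramLocal.exists_isUnram₁_d₁₂_eq` (helper216); here it is transported to the vocabulary
of `Trace/LamS` (`ur2`, `Abs.C1 (localLevel _)`), which closes the hypothesis `hUR`.

Result (`exists_lamS_of_rec`): for `p ∈ S`, a family `inv q` of linear functionals on the local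
2-cochains (all primes `q`) which
* kills `d` of level-constant local 1-cochains (`hcob`), and
* satisfies reciprocity at every finite level `T ⊇ S` (`hrec`)
yields `lam0`, `lam : LamS p S` with the `EvalCup.Star` property.
-/
import Fermat.Agent.S55.Trace.LamS
import Fermat.Agent.S55.Arith.UnramLocal

set_option autoImplicit false

open CategoryTheory groupCohomology ExtCitation

namespace Fermat.Agent.S55.Trace.LamS

open Fermat.Agent.S55.Abs

variable (p : ℕ) [Fact p.Prime]

theorem isUr₁_iff_isUnram₁ (q : Nat.Primes) {X : Type*} (f : primeLocalGaloisGroup q → X) :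
    IsUr₁ q f ↔ Arith.Unram.IsUnram₁ q f := Iff.rfl

theorem isUr₂_iff_isUnram₂ (q : Nat.Primes) {X : Type*}
    (f : primeLocalGaloisGroup q × primeLocalGaloisGroup q → X) :
    IsUr₂ q f ↔ Arith.Unram.IsUnram₂ q f := Iff.rfl

/-- `μ_p` is unramified outside `S ∋ p`. -/
theorem mu_unramified {S : Finset Nat.Primes} (hpS : pPrime p ∈ S) :
    ∃ F₀ : IntermediateField ℚ (AlgebraicClosure ℚ), F₀.IsUnramifiedOutside S ∧
      ∀ s ∈ F₀.fixingSubgroup, (mu p).ρ s = 1 := by
  refine ⟨Glue.cycloField p, Glue.isUnramifiedOutside_cycloField p hpS, fun s hs => ?_⟩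
  refine LinearMap.ext fun x => ?_
  rw [muRep_ρ_apply, Glue.cycloChar_eq_one_of_mem_fixingSubgroup p hs, Units.val_one, one_mul]
  rfl

theorem natCast_ne_of_notMem {S : Finset Nat.Primes} (hpS : pPrime p ∈ S) {q : Nat.Primes}
    (hq : q ∉ S) : (q : ℕ) ≠ p := by
  intro h
  apply hq
  have : q = pPrime p := Subtype.ext h
  rw [this]
  exact hpS

/-- **(UR) for `μ_p`** in the vocabulary of `Trace/LamS`: an unramified local 2-cocycle at
`q ∉ S` is the coboundary of a level-constant (indeed unramified) local 1-cochain. -/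
theorem hUR_mu (S : Finset Nat.Primes) (hpS : pPrime p ∈ S) :
    ∀ q : Nat.Primes, q ∉ S → ∀ z ∈ ur2 p q, (d₂₃ (muLoc p q)).hom z = 0 →
      ∃ x ∈ C1 (localLevel (primeLocalToGlobal q)) (muLoc p q),
        (d₁₂ (muLoc p q)).hom x = z := by
  intro q hq z hz hdz
  have hpk : ((p : ℕ) : ZMod p) = 0 := ZMod.natCast_self p
  have hM : ∃ S₀ : Finset Nat.Primes, q ∉ S₀ ∧ ∃ F₀ : IntermediateField ℚ (AlgebraicClosure ℚ),
      F₀.IsUnramifiedOutside S₀ ∧ ∀ s ∈ F₀.fixingSubgroup, (mu p).ρ s = 1 :=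
    ⟨S, hq, mu_unramified p hpS⟩
  have hcoc : z ∈ cocycles₂ (Rep.res (primeLocalToGlobal q) (mu p)) := hdz
  obtain ⟨x, hxu, hx⟩ := Arith.Unram.exists_isUnram₁_d₁₂_eq p q (natCast_ne_of_notMem p hpS hq)
    hpk (mu p) hM z hcoc hz
  exact ⟨x, ((isUr₁_iff_isUnram₁ q x).2 hxu).isLev₁, hx⟩

/-- **The trace functional from a reciprocity family.** -/
theorem exists_lamS_of_rec (S : Finset Nat.Primes) (hpS : pPrime p ∈ S)
    (inv : ∀ q : Nat.Primes,
      (primeLocalGaloisGroup q × primeLocalGaloisGroup q → muLoc p q) →ₗ[ZMod p] ZMod p)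
    (hcob : ∀ (q : Nat.Primes), ∀ f ∈ C1 (localLevel (primeLocalToGlobal q)) (muLoc p q),
      inv q ((d₁₂ (muLoc p q)).hom f) = 0)
    (hrec : ∀ T : Finset Nat.Primes, S ⊆ T → ∀ z ∈ lev2 p T, (d₂₃ (mu p)).hom z = 0 →
      ∑ q ∈ T, inv q (Base.EvalCup.res₂ (primeLocalToGlobal q) (mu p) z) = 0) :
    ∃ (lam0 : ((GQ × GQ × GQ → mu p) ×
          (∀ v : ↥S, primeLocalGaloisGroup v × primeLocalGaloisGroup v → muLoc p v))
          →ₗ[ZMod p] ZMod p) (lam : LamS p S),
      Base.EvalCup.Star (fun q : Nat.Primes => primeLocalToGlobal q) S lam0 inv (lev2 p) (ur2 p) ∧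
      (∀ x : ↥(Cc3 (globalLevel S) (fun q : ↥S => primeLocalToGlobal q.1)
          (fun q : ↥S => localLevel (primeLocalToGlobal q.1)) (mu p)),
        lam (Submodule.Quotient.mk x) = lam0 x.1) ∧
      (∀ B : ∀ v : ↥S, primeLocalGaloisGroup v × primeLocalGaloisGroup v → muLoc p v,
        lam0 (0, B) = ∑ v : ↥S, inv v (B v)) ∧
      (∀ (e : GQ × GQ → mu p)
        (B : ∀ v : ↥S, primeLocalGaloisGroup v × primeLocalGaloisGroup v → muLoc p v),
        e ∈ lev2 p S → lam0 ((d₂₃ (mu p)).hom e, B)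
          = ∑ v : ↥S, inv v (B v - Base.EvalCup.res₂ (primeLocalToGlobal v) (mu p) e)) :=
  exists_lamS' p S inv hcob (hUR_mu p S hpS) hrec

end Fermat.Agent.S55.Trace.LamS
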