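/-
`RecAdapt`: adapters feeding `Trace/LamClosed.exists_lamS_of_rec`.

* `exists_inv_of_H2` : a family of linear functionals on the local level cohomology
  `H²(G_q, μ_p)` (classes) extends to linear functionals on ALL local 2-cochains which kill
  coboundaries of level-constant 1-cochains and agree with the given ones on level 2-cocycles.
* `inv_res_eq_zero_of_notMem` : for `p ∈ T`, a level-`T` global 2-cocycle has trivial invariant
  at every `q ∉ T`.
* `hrec_of_finsum` : reciprocity stated as a finite-support `finsum` over all primes implies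
  the level-`T` form used by `exists_lamS_of_rec`.
* `hrec_of_subset`  : reciprocity stated for one finite set containing the "bad" primes.
-/
import Fermat.Agent.S55.Trace.LamClosed

set_option autoImplicit false

open CategoryTheory groupCohomology ExtCitation

namespace Fermat.Agent.S55.Trace.LamS

open Fermat.Agent.S55.Abs

variable (p : ℕ) [Fact p.Prime]

/-- `μ_p` is a discrete module of the local group at `q` (for the full local level family). -/
theorem isDisc_muLoc (q : Nat.Primes) :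
    IsDisc (localLevel (primeLocalToGlobal q)) (muLoc p q) :=
  isDisc_res (globalLevel {pPrime p}) (localLevel (primeLocalToGlobal q)) (primeLocalToGlobal q)
    (isLevelMap_localLevel (primeLocalToGlobal q) {pPrime p})
    (isDisc_mu p {pPrime p} (Finset.mem_singleton_self _))

/-- Coboundaries of level-constant local 1-cochains are level 2-cocycles. -/
theorem d₁₂_mem_Z2_muLoc (q : Nat.Primes) {f : primeLocalGaloisGroup q → muLoc p q}
    (hf : f ∈ C1 (localLevel (primeLocalToGlobal q)) (muLoc p q)) :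
    (d₁₂ (muLoc p q)).hom f ∈ Z2 (localLevel (primeLocalToGlobal q)) (muLoc p q) :=
  ⟨d₁₂_mem_C2 (localLevel (primeLocalToGlobal q)) (isDisc_muLoc p q) hf,
    coboundaries₂_le_cocycles₂ (muLoc p q) ⟨f, rfl⟩⟩

/-- **From classes to cochains.** A family of functionals on the local level `H²` extends to
functionals on all local 2-cochains, killing the coboundaries of level-constant 1-cochains. -/
theorem exists_inv_of_H2
    (i : ∀ q : Nat.Primes,
      H2 (localLevel (primeLocalToGlobal q)) (muLoc p q) →ₗ[ZMod p] ZMod p) :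
    ∃ inv : ∀ q : Nat.Primes,
        (primeLocalGaloisGroup q × primeLocalGaloisGroup q → muLoc p q) →ₗ[ZMod p] ZMod p,
      (∀ (q : Nat.Primes) (z : primeLocalGaloisGroup q × primeLocalGaloisGroup q → muLoc p q)
        (hz : z ∈ Z2 (localLevel (primeLocalToGlobal q)) (muLoc p q)),
        inv q z = i q (Submodule.Quotient.mk ⟨z, hz⟩)) ∧
      (∀ (q : Nat.Primes), ∀ f ∈ C1 (localLevel (primeLocalToGlobal q)) (muLoc p q),
        inv q ((d₁₂ (muLoc p q)).hom f) = 0) := by
  have key : ∀ q : Nat.Primes, ∃ g :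
      (primeLocalGaloisGroup q × primeLocalGaloisGroup q → muLoc p q) →ₗ[ZMod p] ZMod p,
      ∀ (z : primeLocalGaloisGroup q × primeLocalGaloisGroup q → muLoc p q)
        (hz : z ∈ Z2 (localLevel (primeLocalToGlobal q)) (muLoc p q)),
        g z = i q (Submodule.Quotient.mk ⟨z, hz⟩) := by
    intro q
    obtain ⟨g, hg⟩ := LinearMap.exists_extend
      ((i q) ∘ₗ Submodule.mkQ ((B2 (localLevel (primeLocalToGlobal q)) (muLoc p q)).comap
        (Z2 (localLevel (primeLocalToGlobal q)) (muLoc p q)).subtype))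
    refine ⟨g, fun z hz => ?_⟩
    have := congrArg (fun φ => φ ⟨z, hz⟩) hg
    simpa using this
  choose inv hinv using key
  refine ⟨inv, hinv, fun q f hf => ?_⟩
  have hz := d₁₂_mem_Z2_muLoc p q hf
  rw [hinv q _ hz]
  have h0 : (Submodule.Quotient.mk ⟨(d₁₂ (muLoc p q)).hom f, hz⟩ :
      H2 (localLevel (primeLocalToGlobal q)) (muLoc p q)) = 0 := by
    rw [Submodule.Quotient.mk_eq_zero]
    exact ⟨f, hf, rfl⟩
  rw [h0, map_zero]

/-- For `p ∈ T`: the restriction to `q ∉ T` of a level-`T` global 2-cocycle has trivial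
invariant. -/
theorem inv_res_eq_zero_of_notMem
    (inv : ∀ q : Nat.Primes,
      (primeLocalGaloisGroup q × primeLocalGaloisGroup q → muLoc p q) →ₗ[ZMod p] ZMod p)
    (hcob : ∀ (q : Nat.Primes), ∀ f ∈ C1 (localLevel (primeLocalToGlobal q)) (muLoc p q),
      inv q ((d₁₂ (muLoc p q)).hom f) = 0)
    {T : Finset Nat.Primes} (hpT : pPrime p ∈ T) {z : GQ × GQ → mu p} (hz : z ∈ lev2 p T)
    (hdz : (d₂₃ (mu p)).hom z = 0) {q : Nat.Primes} (hq : q ∉ T) :
    inv q (Base.EvalCup.res₂ (primeLocalToGlobal q) (mu p) z) = 0 := by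
  have hd : (d₂₃ (muLoc p q)).hom (Base.EvalCup.res₂ (primeLocalToGlobal q) (mu p) z) = 0 := by
    rw [Base.EvalCup.d₂₃_res, hdz, map_zero]
  obtain ⟨x, hx, hxz⟩ := hUR_mu p T hpT q hq _ (res₂_mem_ur2 p hq hz) hd
  rw [← hxz]
  exact hcob q x hx

/-- If `∑_{q ∈ T'} inv q (res_q z) = 0` holds for SOME finite `T' ⊇ T`, then it holds for `T`
(`p ∈ T`, `z` a 2-cocycle of level `T`): the terms at `q ∈ T' \ T` vanish. -/
theorem hrec_of_subset
    (inv : ∀ q : Nat.Primes,
      (primeLocalGaloisGroup q × primeLocalGaloisGroup q → muLoc p q) →ₗ[ZMod p] ZMod p)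
    (hcob : ∀ (q : Nat.Primes), ∀ f ∈ C1 (localLevel (primeLocalToGlobal q)) (muLoc p q),
      inv q ((d₁₂ (muLoc p q)).hom f) = 0)
    {T T' : Finset Nat.Primes} (hpT : pPrime p ∈ T) (hTT' : T ⊆ T') {z : GQ × GQ → mu p}
    (hz : z ∈ lev2 p T) (hdz : (d₂₃ (mu p)).hom z = 0)
    (h : ∑ q ∈ T', inv q (Base.EvalCup.res₂ (primeLocalToGlobal q) (mu p) z) = 0) :
    ∑ q ∈ T, inv q (Base.EvalCup.res₂ (primeLocalToGlobal q) (mu p) z) = 0 := by
  rw [← h]
  exact Finset.sum_subset hTT' fun q _ hq => inv_res_eq_zero_of_notMem p inv hcob hpT hz hdz hq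

/-- Reciprocity in `finsum` form (over all primes) implies the level-`T` form. -/
theorem hrec_of_finsum
    (inv : ∀ q : Nat.Primes,
      (primeLocalGaloisGroup q × primeLocalGaloisGroup q → muLoc p q) →ₗ[ZMod p] ZMod p)
    (hcob : ∀ (q : Nat.Primes), ∀ f ∈ C1 (localLevel (primeLocalToGlobal q)) (muLoc p q),
      inv q ((d₁₂ (muLoc p q)).hom f) = 0)
    (hfin : ∀ (T : Finset Nat.Primes) (z : GQ × GQ → mu p), pPrime p ∈ T → z ∈ lev2 p T →
      (d₂₃ (mu p)).hom z = 0 →
      ∑ᶠ q : Nat.Primes, inv q (Base.EvalCup.res₂ (primeLocalToGlobal q) (mu p) z) = 0)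
    (T : Finset Nat.Primes) (hpT : pPrime p ∈ T) (z : GQ × GQ → mu p) (hz : z ∈ lev2 p T)
    (hdz : (d₂₃ (mu p)).hom z = 0) :
    ∑ q ∈ T, inv q (Base.EvalCup.res₂ (primeLocalToGlobal q) (mu p) z) = 0 := by
  rw [← hfin T z hpT hz hdz]
  symm
  apply finsum_eq_sum_of_support_subset
  intro q hq
  by_contra hqT
  exact hq (inv_res_eq_zero_of_notMem p inv hcob hpT hz hdz (fun h => hqT (Finset.mem_coe.2 h)))

/-- **The trace functional from invariants on classes.** `i q` functionals on the local level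
`H²(G_q, μ_p)`, with reciprocity for level-`T` global 2-cocycles (`p ∈ T`) in the form: the sum
of the invariants of the restrictions over `T` vanishes. -/
theorem exists_lamS_of_classes (S : Finset Nat.Primes) (hpS : pPrime p ∈ S)
    (i : ∀ q : Nat.Primes,
      H2 (localLevel (primeLocalToGlobal q)) (muLoc p q) →ₗ[ZMod p] ZMod p)
    (hrec : ∀ (T : Finset Nat.Primes), pPrime p ∈ T → ∀ (z : GQ × GQ → mu p) (_ : z ∈ lev2 p T)
      (_ : (d₂₃ (mu p)).hom z = 0)
      (hloc : ∀ q : Nat.Primes, Base.EvalCup.res₂ (primeLocalToGlobal q) (mu p) z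
        ∈ Z2 (localLevel (primeLocalToGlobal q)) (muLoc p q)),
      ∑ q ∈ T, i q (Submodule.Quotient.mk
        ⟨Base.EvalCup.res₂ (primeLocalToGlobal q) (mu p) z, hloc q⟩) = 0) :
    ∃ (inv : ∀ q : Nat.Primes,
        (primeLocalGaloisGroup q × primeLocalGaloisGroup q → muLoc p q) →ₗ[ZMod p] ZMod p)
      (lam0 : ((GQ × GQ × GQ → mu p) ×
          (∀ v : ↥S, primeLocalGaloisGroup v × primeLocalGaloisGroup v → muLoc p v))
          →ₗ[ZMod p] ZMod p) (lam : LamS p S),
      (∀ (q : Nat.Primes) (z : primeLocalGaloisGroup q × primeLocalGaloisGroup q → muLoc p q)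
        (hz : z ∈ Z2 (localLevel (primeLocalToGlobal q)) (muLoc p q)),
        inv q z = i q (Submodule.Quotient.mk ⟨z, hz⟩)) ∧
      (∀ (q : Nat.Primes), ∀ f ∈ C1 (localLevel (primeLocalToGlobal q)) (muLoc p q),
        inv q ((d₁₂ (muLoc p q)).hom f) = 0) ∧
      Base.EvalCup.Star (fun q : Nat.Primes => primeLocalToGlobal q) S lam0 inv (lev2 p) (ur2 p) ∧
      (∀ x : ↥(Cc3 (globalLevel S) (fun q : ↥S => primeLocalToGlobal q.1)
          (fun q : ↥S => localLevel (primeLocalToGlobal q.1)) (mu p)),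
        lam (Submodule.Quotient.mk x) = lam0 x.1) ∧
      (∀ B : ∀ v : ↥S, primeLocalGaloisGroup v × primeLocalGaloisGroup v → muLoc p v,
        lam0 (0, B) = ∑ v : ↥S, inv v (B v)) ∧
      (∀ (v : ↥S) (z : primeLocalGaloisGroup v × primeLocalGaloisGroup v → muLoc p v)
        (hz : z ∈ Z2 (localLevel (primeLocalToGlobal v)) (muLoc p v)),
        invOf (globalLevel S) (fun q : ↥S => primeLocalToGlobal q.1)
          (fun q : ↥S => localLevel (primeLocalToGlobal q.1)) (mu p) lam v
          (Submodule.Quotient.mk ⟨z, hz⟩) = i v (Submodule.Quotient.mk ⟨z, hz⟩)) := by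
  obtain ⟨inv, hinv, hcob⟩ := exists_inv_of_H2 p i
  have hres : ∀ (T : Finset Nat.Primes) (z : GQ × GQ → mu p), z ∈ lev2 p T →
      (d₂₃ (mu p)).hom z = 0 → ∀ q : Nat.Primes,
      Base.EvalCup.res₂ (primeLocalToGlobal q) (mu p) z
        ∈ Z2 (localLevel (primeLocalToGlobal q)) (muLoc p q) := by
    intro T z hz hdz q
    refine ⟨?_, ?_⟩
    · obtain ⟨U, ⟨F, hF, rfl⟩, h⟩ := hz
      refine ⟨_, ⟨F, hF.1, rfl⟩, fun g g' s s' hs hs' => ?_⟩
      show z (primeLocalToGlobal q (g * s), primeLocalToGlobal q (g' * s'))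
        = z (primeLocalToGlobal q g, primeLocalToGlobal q g')
      rw [map_mul, map_mul]
      exact h _ _ _ _ hs hs'
    · show (d₂₃ (muLoc p q)).hom (Base.EvalCup.res₂ (primeLocalToGlobal q) (mu p) z) = 0
      rw [Base.EvalCup.d₂₃_res, hdz, map_zero]
  have hrec' : ∀ T : Finset Nat.Primes, S ⊆ T → ∀ z ∈ lev2 p T, (d₂₃ (mu p)).hom z = 0 →
      ∑ q ∈ T, inv q (Base.EvalCup.res₂ (primeLocalToGlobal q) (mu p) z) = 0 := by
    intro T hST z hz hdz
    rw [← hrec T (hST hpS) z hz hdz (hres T z hz hdz)]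
    exact Finset.sum_congr rfl fun q _ => hinv q _ (hres T z hz hdz q)
  obtain ⟨lam0, lam, hstar, hlam, h0, -⟩ := exists_lamS_of_rec p S hpS inv hcob hrec'
  refine ⟨inv, lam0, lam, hinv, hcob, hstar, hlam, h0, fun v z hz => ?_⟩
  rw [invOf_eq p S inv lam0 lam hlam h0 v z hz, hinv v z hz]

end Fermat.Agent.S55.Trace.LamS
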