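/-
S55 / PROGRAM CFT — the trace functional on the degree-3 cone cohomology, abstract form.

`exists_trace` : given
  * "all" 2-cochains `X2` with differential `d : X2 → X3` and the S-level ones `X2S ≤ X2`,
  * for every place `v` local 2-cochains `L2 v` with `dl v : L2 v → L3 v`, restrictions commuting
    with the differentials, local functionals `lam v` killing the local coboundaries `B2 v`,
  * unramified local cochains `U2 v` (used for `v ∉ S`): `lam v` kills unramified cocycles and
    the restriction of an S-level cochain is unramified,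
  * reciprocity `hRec` for ALL global 2-cocycles (any level): `∑ᶠ v, lam v (res z) = 0`,
  * the cone: cocycles `Z` with global component `glob`, local components `loc v` (`v ∈ S`) and
    coboundaries `Bc` (each is `(d E₀, res E₀ + local coboundary)` with `E₀` S-level),
there is a linear functional `Λ` on `Z ⧸ Bc` whose value on the class of `z` is
`∑ᶠ v, lam v (β v - res v E)` for ANY `E : X2` (not necessarily S-level) with `d E = glob z` and
ANY family `β` with `β v = loc v z` on `S` and `β v` unramified with `dl (β v) = res (glob z)`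
off `S`.  In particular (`E = 0`, `β = 0` off `S`) `Λ` is `∑_{v ∈ S} lam v` on the image of
the local cocycles.  No vanishing of any `H^3` is used.
-/
import Mathlib

set_option autoImplicit false

namespace Fermat.Agent.S55.Trace

open Function

section Factor

variable {k : Type*} [Field k] {W V : Type*} [AddCommGroup W] [Module k W]
  [AddCommGroup V] [Module k V]

/-- Over a field, a functional on `W` that kills `ker π` factors through `π : W → V`
(after an arbitrary extension from the range). -/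
theorem exists_factor_of_ker_le (π : W →ₗ[k] V) (f : W →ₗ[k] k)
    (h : LinearMap.ker π ≤ LinearMap.ker f) : ∃ Λ : V →ₗ[k] k, ∀ w, Λ (π w) = f w := by
  classical
  -- a functional on the range
  have hwd : ∀ y : LinearMap.range π, ∃ c : k, ∀ w, π w = y → f w = c := by
    rintro ⟨y, w₀, rfl⟩
    refine ⟨f w₀, fun w hw => ?_⟩
    have : w - w₀ ∈ LinearMap.ker π := by
      simp [LinearMap.mem_ker, map_sub, hw]
    have h2 := h this
    rw [LinearMap.mem_ker, map_sub, sub_eq_zero] at h2
    exact h2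
  choose g hg using hwd
  have hgπ : ∀ w, g ⟨π w, LinearMap.mem_range_self π w⟩ = f w := fun w => (hg _ w rfl).symm
  let G : LinearMap.range π →ₗ[k] k :=
    { toFun := g
      map_add' := by
        rintro ⟨y, w, rfl⟩ ⟨y', w', rfl⟩
        have e : (⟨π w, LinearMap.mem_range_self π w⟩ + ⟨π w', LinearMap.mem_range_self π w'⟩ :
            LinearMap.range π) = ⟨π (w + w'), LinearMap.mem_range_self π (w + w')⟩ := by
          ext; simp
        rw [e, hgπ, hgπ, hgπ, map_add]
      map_smul' := by
        rintro c ⟨y, w, rfl⟩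
        have e : (c • ⟨π w, LinearMap.mem_range_self π w⟩ : LinearMap.range π)
            = ⟨π (c • w), LinearMap.mem_range_self π (c • w)⟩ := by
          ext; simp
        rw [e, hgπ, hgπ, map_smul]; rfl }
  obtain ⟨Λ, hΛ⟩ := LinearMap.exists_extend G
  refine ⟨Λ, fun w => ?_⟩
  have := congrArg (fun φ => φ ⟨π w, LinearMap.mem_range_self π w⟩) hΛ
  simp only [LinearMap.comp_apply, Submodule.subtype_apply] at this
  rw [this]
  exact hgπ w

end Factor

section Trace

variable {k : Type*} [Field k]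
  {X2 X3 : Type*} [AddCommGroup X2] [Module k X2] [AddCommGroup X3] [Module k X3]
  {ι : Type*} {L2 L3 : ι → Type*}
  [∀ v, AddCommGroup (L2 v)] [∀ v, Module k (L2 v)]
  [∀ v, AddCommGroup (L3 v)] [∀ v, Module k (L3 v)]
  {Z : Type*} [AddCommGroup Z] [Module k Z]

/-- The trace on the degree-3 cone cohomology, defined through cochains of arbitrary level. -/
theorem exists_trace
    (d : X2 →ₗ[k] X3) (X2S : Submodule k X2) (S : Set ι)
    (res2 : ∀ v, X2 →ₗ[k] L2 v) (res3 : ∀ v, X3 →ₗ[k] L3 v) (dl : ∀ v, L2 v →ₗ[k] L3 v)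
    (hres : ∀ v E, dl v (res2 v E) = res3 v (d E))
    (lam : ∀ v, L2 v →ₗ[k] k) (B2 U2 : ∀ v, Submodule k (L2 v))
    (hB2 : ∀ v, ∀ b ∈ B2 v, lam v b = 0)
    (hNr : ∀ v, v ∉ S → ∀ b ∈ U2 v, dl v b = 0 → lam v b = 0)
    (hXS : ∀ v, v ∉ S → ∀ E ∈ X2S, res2 v E ∈ U2 v)
    (hRec : ∀ z : X2, d z = 0 →
      (support fun v => lam v (res2 v z)).Finite ∧ ∑ᶠ v, lam v (res2 v z) = 0)
    (glob : Z →ₗ[k] X3) (loc : ∀ v, Z →ₗ[k] L2 v) (Bc : Submodule k Z)
    (hBc : ∀ w ∈ Bc, ∃ E₀ ∈ X2S, glob w = d E₀ ∧ ∀ v, v ∈ S → loc v w - res2 v E₀ ∈ B2 v) :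
    ∃ Λ : (Z ⧸ Bc) →ₗ[k] k,
      ∀ (z : Z) (E : X2) (β : ∀ v, L2 v), d E = glob z → (∀ v, v ∈ S → β v = loc v z) →
        (∀ v, v ∉ S → β v ∈ U2 v ∧ dl v (β v) = res3 v (glob z)) →
        (support fun v => lam v (β v - res2 v E)).Finite →
        Λ (Submodule.Quotient.mk z) = ∑ᶠ v, lam v (β v - res2 v E) := by
  classical
  -- the module of witness triples
  let W : Submodule k (Z × X2 × (∀ v, L2 v)) :=
    { carrier := {w | d w.2.1 = glob w.1 ∧ (∀ v, v ∈ S → w.2.2 v = loc v w.1) ∧
        (∀ v, v ∉ S → w.2.2 v ∈ U2 v ∧ dl v (w.2.2 v) = res3 v (glob w.1)) ∧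
        (support fun v => lam v (w.2.2 v - res2 v w.2.1)).Finite}
      add_mem' := by
        rintro ⟨z, E, β⟩ ⟨z', E', β'⟩ ⟨h1, h2, h3, h4⟩ ⟨h1', h2', h3', h4'⟩
        refine ⟨by simp only [Prod.fst_add, Prod.snd_add, map_add] at *; rw [h1, h1'],
          fun v hv => by
            simp only [Prod.fst_add, Prod.snd_add, map_add, Pi.add_apply] at *
            rw [h2 v hv, h2' v hv],
          fun v hv => ⟨by
            simp only [Prod.snd_add, Pi.add_apply]
            exact (U2 v).add_mem (h3 v hv).1 (h3' v hv).1, by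
            simp only [Prod.fst_add, Prod.snd_add, map_add, Pi.add_apply] at *
            rw [(h3 v hv).2, (h3' v hv).2]⟩, ?_⟩
        refine (h4.union h4').subset fun v hv => ?_
        simp only [Prod.snd_add, Pi.add_apply, mem_support, ne_eq, Prod.fst_add, map_add] at hv
        by_contra hcon
        simp only [Set.mem_union, mem_support, ne_eq, not_or, not_not] at hcon
        apply hv
        have : β v + β' v - (res2 v E + res2 v E') = (β v - res2 v E) + (β' v - res2 v E') := by
          abel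
        rw [this, map_add, hcon.1, hcon.2, add_zero]
      zero_mem' := by
        refine ⟨by simp, fun v _ => by simp, fun v _ => ⟨by simp, by simp⟩, ?_⟩
        simp [support]
      smul_mem' := by
        rintro c ⟨z, E, β⟩ ⟨h1, h2, h3, h4⟩
        refine ⟨by simp only [Prod.smul_fst, Prod.smul_snd, map_smul] at *; rw [h1],
          fun v hv => by
            simp only [Prod.smul_fst, Prod.smul_snd, map_smul, Pi.smul_apply] at *
            rw [h2 v hv],
          fun v hv => ⟨by
            simp only [Prod.smul_snd, Pi.smul_apply]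
            exact (U2 v).smul_mem c (h3 v hv).1, by
            simp only [Prod.smul_fst, Prod.smul_snd, map_smul, Pi.smul_apply] at *
            rw [(h3 v hv).2]⟩, ?_⟩
        refine h4.subset fun v hv => ?_
        simp only [Prod.smul_snd, Pi.smul_apply, mem_support, ne_eq, Prod.smul_fst,
          map_smul] at hv
        intro hcon
        apply hv
        have : c • β v - c • res2 v E = c • (β v - res2 v E) := by rw [smul_sub]
        rw [this, map_smul, show lam v (β v - res2 v E) = 0 from hcon, smul_zero] }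
  -- the functional on witnesses
  let f : W →ₗ[k] k :=
    { toFun := fun w => ∑ᶠ v, lam v (w.1.2.2 v - res2 v w.1.2.1)
      map_add' := by
        rintro ⟨⟨z, E, β⟩, hw⟩ ⟨⟨z', E', β'⟩, hw'⟩
        have e : ∀ v, lam v ((β + β') v - res2 v (E + E'))
            = lam v (β v - res2 v E) + lam v (β' v - res2 v E') := by
          intro v
          rw [← map_add]
          congr 1
          simp only [Pi.add_apply, map_add]
          abel
        show ∑ᶠ v, lam v ((β + β') v - res2 v (E + E')) = _
        rw [finsum_congr e]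
        exact finsum_add_distrib hw.2.2.2 hw'.2.2.2
      map_smul' := by
        rintro c ⟨⟨z, E, β⟩, hw⟩
        have e : ∀ v, lam v ((c • β) v - res2 v (c • E)) = c • lam v (β v - res2 v E) := by
          intro v
          rw [← map_smul]
          congr 1
          simp only [Pi.smul_apply, map_smul, smul_sub]
        show ∑ᶠ v, lam v ((c • β) v - res2 v (c • E)) = _
        rw [finsum_congr e]
        exact (smul_finsum' c hw.2.2.2).symm }
  -- the projection to the cone cohomology
  let π : W →ₗ[k] (Z ⧸ Bc) := (Submodule.mkQ Bc) ∘ₗ (LinearMap.fst k Z _) ∘ₗ W.subtype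
  have hker : LinearMap.ker π ≤ LinearMap.ker f := by
    rintro ⟨⟨z, E, β⟩, h1, h2, h3, h4⟩ hw
    have hz : z ∈ Bc := by
      have : π ⟨⟨z, E, β⟩, h1, h2, h3, h4⟩ = 0 := hw
      simpa [π, Submodule.Quotient.mk_eq_zero] using this
    obtain ⟨E₀, hE₀, hgl, hlc⟩ := hBc z hz
    simp only at h1 h2 h3 h4
    have hζ : d (E₀ - E) = 0 := by rw [map_sub, h1, ← hgl, sub_self]
    obtain ⟨-, hsum⟩ := hRec (E₀ - E) hζ
    have e : ∀ v, lam v (β v - res2 v E) = lam v (res2 v (E₀ - E)) := by
      intro v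
      have hsplit : β v - res2 v E = (β v - res2 v E₀) + res2 v (E₀ - E) := by
        rw [map_sub]; abel
      rw [hsplit, map_add]
      by_cases hv : v ∈ S
      · rw [h2 v hv, hB2 v _ (hlc v hv), zero_add]
      · have hU : β v - res2 v E₀ ∈ U2 v := (U2 v).sub_mem (h3 v hv).1 (hXS v hv E₀ hE₀)
        have hd : dl v (β v - res2 v E₀) = 0 := by
          rw [map_sub, (h3 v hv).2, hres, ← hgl, sub_self]
        rw [hNr v hv _ hU hd, zero_add]
    show ∑ᶠ v, lam v (β v - res2 v E) = 0
    rw [finsum_congr e]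
    exact hsum
  obtain ⟨Λ, hΛ⟩ := exists_factor_of_ker_le π f hker
  refine ⟨Λ, fun z E β h1 h2 h3 h4 => ?_⟩
  exact hΛ ⟨⟨z, E, β⟩, h1, h2, h3, h4⟩

/-- On classes whose global component vanishes the trace is the sum of the local functionals
over `S` (for `S` finite this is `∑ v ∈ S, lam v (loc v z)`). -/
theorem exists_trace_local
    (d : X2 →ₗ[k] X3) (X2S : Submodule k X2) (S : Set ι) (hS : S.Finite)
    (res2 : ∀ v, X2 →ₗ[k] L2 v) (res3 : ∀ v, X3 →ₗ[k] L3 v) (dl : ∀ v, L2 v →ₗ[k] L3 v)
    (hres : ∀ v E, dl v (res2 v E) = res3 v (d E))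
    (lam : ∀ v, L2 v →ₗ[k] k) (B2 U2 : ∀ v, Submodule k (L2 v))
    (hB2 : ∀ v, ∀ b ∈ B2 v, lam v b = 0)
    (hNr : ∀ v, v ∉ S → ∀ b ∈ U2 v, dl v b = 0 → lam v b = 0)
    (hXS : ∀ v, v ∉ S → ∀ E ∈ X2S, res2 v E ∈ U2 v)
    (hRec : ∀ z : X2, d z = 0 →
      (support fun v => lam v (res2 v z)).Finite ∧ ∑ᶠ v, lam v (res2 v z) = 0)
    (glob : Z →ₗ[k] X3) (loc : ∀ v, Z →ₗ[k] L2 v) (Bc : Submodule k Z)
    (hBc : ∀ w ∈ Bc, ∃ E₀ ∈ X2S, glob w = d E₀ ∧ ∀ v, v ∈ S → loc v w - res2 v E₀ ∈ B2 v) :
    ∃ Λ : (Z ⧸ Bc) →ₗ[k] k,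
      (∀ (z : Z) (E : X2) (β : ∀ v, L2 v), d E = glob z → (∀ v, v ∈ S → β v = loc v z) →
        (∀ v, v ∉ S → β v ∈ U2 v ∧ dl v (β v) = res3 v (glob z)) →
        (support fun v => lam v (β v - res2 v E)).Finite →
        Λ (Submodule.Quotient.mk z) = ∑ᶠ v, lam v (β v - res2 v E)) ∧
      (∀ z : Z, glob z = 0 →
        Λ (Submodule.Quotient.mk z) = ∑ᶠ v ∈ S, lam v (loc v z)) := by
  classical
  obtain ⟨Λ, hΛ⟩ := exists_trace d X2S S res2 res3 dl hres lam B2 U2 hB2 hNr hXS hRec glob loc Bc hBc
  refine ⟨Λ, hΛ, fun z hz => ?_⟩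
  have key : ∀ v, lam v ((fun v => if v ∈ S then loc v z else 0 : ∀ v, L2 v) v - res2 v 0)
      = if v ∈ S then lam v (loc v z) else 0 := by
    intro v
    by_cases hv : v ∈ S <;> simp [hv]
  have hfin : (support fun v => lam v ((fun v => if v ∈ S then loc v z else 0 : ∀ v, L2 v) v
      - res2 v 0)).Finite := by
    refine hS.subset fun v hv => ?_
    rw [mem_support, key] at hv
    by_contra hcon
    exact hv (by simp [hcon])
  rw [hΛ z 0 (fun v => if v ∈ S then loc v z else 0) (by rw [map_zero, hz])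
    (fun v hv => by simp [hv]) (fun v hv => ⟨by simp [hv], by simp [hv, hz]⟩) hfin]
  rw [finsum_congr key]
  rw [finsum_mem_def]
  refine finsum_congr fun v => ?_
  by_cases hv : v ∈ S <;> simp [hv, Set.indicator]

end Trace

end Fermat.Agent.S55.Trace
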