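/-
`RecClasses`: from reciprocity on cohomology CLASSES, in the shape of the conclusion of
`CFT/Rec/Formal.exists_inv` (a `finsum` over all primes, for classes of ANY level), to the
reciprocity family on cochains consumed by `Trace/LamClosed.exists_lamS_of_rec`
(= the two fields `cob`, `recip` of `Wire.IsRecFamily`).

* `fullLevel`            : the level family of all finite extensions of `ℚ` on `G_ℚ`.
* `XQ p`, `HQ p q`, `locQ p q` : a ready-made choice of global classes (`H²` of full-level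
  cochains with values in `μ_p`), local classes and restriction maps, for `Rec/Formal`.
* `finite_support_locQ`  : every global class is locally trivial at almost all primes (finite
  ramification + unramified 2-cocycles are coboundaries).
* `exists_recFamily_of_formal` : generic version (any `X`, `H q`, `loc q` with class maps).
* `exists_recFamily_of_locQ`   : the version for `XQ`, `HQ`, `locQ`.
-/
import Fermat.Agent.S55.Trace.RecAdapt
import Fermat.Agent.Lib.FiniteRamification

set_option autoImplicit false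

open CategoryTheory groupCohomology ExtCitation

namespace Fermat.Agent.S55.Trace.LamS

open Fermat.Agent.S55.Abs

variable (p : ℕ) [Fact p.Prime]

/-- The full level family of `G_ℚ`: the subgroups `Gal(ℚ̄/F)`, `F/ℚ` finite. -/
noncomputable abbrev fullLevel : LevelFamily GQ := localLevel (MonoidHom.id GQ)

theorem lev2_le_C2_full (T : Finset Nat.Primes) : lev2 p T ≤ C2 fullLevel (mu p) := by
  rintro f ⟨U, ⟨F, hF, rfl⟩, hf⟩
  exact ⟨_, ⟨F, hF.1, rfl⟩, fun g g' s s' hs hs' => hf g g' s s' hs hs'⟩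

/-- A full-level global 2-cochain has level `T` for some finite `T ∋ p`. -/
theorem exists_lev2_of_mem_C2_full {z : GQ × GQ → mu p} (hz : z ∈ C2 fullLevel (mu p)) :
    ∃ T : Finset Nat.Primes, pPrime p ∈ T ∧ z ∈ lev2 p T := by
  obtain ⟨U, ⟨F, hF, rfl⟩, h⟩ := hz
  have := hF
  obtain ⟨T, hpT, hT⟩ :=
    Fermat.Agent.Lib.FiniteRamification.exists_superset_isUnramifiedOutside {pPrime p} F
  exact ⟨T, hpT (Finset.mem_singleton_self _), _, ⟨F, hT, rfl⟩,
    fun g g' s s' hs hs' => h g g' s s' hs hs'⟩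

/-- Restriction of a full-level global 2-cocycle to the local group at `q`. -/
theorem res₂_mem_Z2_of_full (q : Nat.Primes) {z : GQ × GQ → mu p}
    (hz : z ∈ Z2 fullLevel (mu p)) :
    Base.EvalCup.res₂ (primeLocalToGlobal q) (mu p) z
      ∈ Z2 (localLevel (primeLocalToGlobal q)) (muLoc p q) := by
  refine ⟨?_, ?_⟩
  · obtain ⟨U, ⟨F, hF, rfl⟩, h⟩ := hz.1
    refine ⟨_, ⟨F, hF, rfl⟩, fun g g' s s' hs hs' => ?_⟩
    show z (primeLocalToGlobal q (g * s), primeLocalToGlobal q (g' * s'))
      = z (primeLocalToGlobal q g, primeLocalToGlobal q g')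
    rw [map_mul, map_mul]
    exact h _ _ _ _ hs hs'
  · show (d₂₃ (muLoc p q)).hom (Base.EvalCup.res₂ (primeLocalToGlobal q) (mu p) z) = 0
    have hdz : (d₂₃ (mu p)).hom z = 0 := hz.2
    rw [Base.EvalCup.d₂₃_res, hdz, map_zero]

/-- Restriction of a full-level global 2-coboundary is a local level 2-coboundary. -/
theorem res₂_mem_B2_of_full (q : Nat.Primes) {z : GQ × GQ → mu p}
    (hz : z ∈ B2 fullLevel (mu p)) :
    Base.EvalCup.res₂ (primeLocalToGlobal q) (mu p) z
      ∈ B2 (localLevel (primeLocalToGlobal q)) (muLoc p q) := by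
  obtain ⟨c, hc, rfl⟩ := hz
  refine ⟨Base.EvalCup.res₁ (primeLocalToGlobal q) (mu p) c, ?_,
    Base.EvalCup.d₁₂_res (primeLocalToGlobal q) (mu p) c⟩
  obtain ⟨U, ⟨F, hF, rfl⟩, h⟩ := hc
  refine ⟨_, ⟨F, hF, rfl⟩, fun g s hs => ?_⟩
  show c (primeLocalToGlobal q (g * s)) = c (primeLocalToGlobal q g)
  rw [map_mul]
  exact h _ _ hs

/-- For `p ∈ T`: the restriction to `q ∉ T` of a level-`T` global 2-cocycle is a local level
2-coboundary. -/
theorem res₂_mem_B2_of_notMem {T : Finset Nat.Primes} (hpT : pPrime p ∈ T)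
    {z : GQ × GQ → mu p} (hz : z ∈ lev2 p T) (hdz : (d₂₃ (mu p)).hom z = 0)
    {q : Nat.Primes} (hq : q ∉ T) :
    Base.EvalCup.res₂ (primeLocalToGlobal q) (mu p) z
      ∈ B2 (localLevel (primeLocalToGlobal q)) (muLoc p q) := by
  have hd : (d₂₃ (muLoc p q)).hom (Base.EvalCup.res₂ (primeLocalToGlobal q) (mu p) z) = 0 := by
    rw [Base.EvalCup.d₂₃_res, hdz, map_zero]
  obtain ⟨x, hx, hxz⟩ := hUR_mu p T hpT q hq _ (res₂_mem_ur2 p hq hz) hd
  exact ⟨x, hx, hxz⟩

/-! ### Generic form -/

section Generic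

variable {X : Type*} [AddCommGroup X] [Module (ZMod p) X]
  {H : Nat.Primes → Type*} [∀ q, AddCommGroup (H q)] [∀ q, Module (ZMod p) (H q)]

/-- Every global class is locally trivial outside a finite set of primes. -/
theorem finite_support_of_formal
    (loc : ∀ q, X →ₗ[ZMod p] H q)
    (cl : ∀ q : Nat.Primes,
      ↥(Z2 (localLevel (primeLocalToGlobal q)) (muLoc p q)) →ₗ[ZMod p] H q)
    (hcl : ∀ (q : Nat.Primes) (z : ↥(Z2 (localLevel (primeLocalToGlobal q)) (muLoc p q))),
      z.1 ∈ B2 (localLevel (primeLocalToGlobal q)) (muLoc p q) → cl q z = 0)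
    (gcl : ↥(Z2 fullLevel (mu p)) → X)
    (hloc : ∀ (q : Nat.Primes) (z : ↥(Z2 fullLevel (mu p))),
      loc q (gcl z) = cl q ⟨_, res₂_mem_Z2_of_full p q z.2⟩)
    (z : ↥(Z2 fullLevel (mu p))) : {q | loc q (gcl z) ≠ 0}.Finite := by
  obtain ⟨T, hpT, hT⟩ := exists_lev2_of_mem_C2_full p z.2.1
  refine (Finset.finite_toSet T).subset fun q hq => ?_
  by_contra hqT
  apply hq
  rw [hloc q z]
  exact hcl q _ (res₂_mem_B2_of_notMem p hpT hT z.2.2 (fun h => hqT (Finset.mem_coe.2 h)))

/-- **From `Rec/Formal` to a reciprocity family on cochains.**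
`X` global classes with class map `gcl`, `H q` local classes with class maps `cl q` (killing
local level coboundaries), `loc q` compatible with restriction of cocycles, `i q` functionals
on `H q` with reciprocity in `finsum` form.  Then the `i q ∘ cl q` extend to functionals
`inv q` on ALL local 2-cochains such that `inv` kills coboundaries of level-constant local
1-cochains and satisfies reciprocity at every finite level `T ∋ p`. -/
theorem exists_recFamily_of_formal
    (loc : ∀ q, X →ₗ[ZMod p] H q)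
    (cl : ∀ q : Nat.Primes,
      ↥(Z2 (localLevel (primeLocalToGlobal q)) (muLoc p q)) →ₗ[ZMod p] H q)
    (hcl : ∀ (q : Nat.Primes) (z : ↥(Z2 (localLevel (primeLocalToGlobal q)) (muLoc p q))),
      z.1 ∈ B2 (localLevel (primeLocalToGlobal q)) (muLoc p q) → cl q z = 0)
    (gcl : ↥(Z2 fullLevel (mu p)) → X)
    (hloc : ∀ (q : Nat.Primes) (z : ↥(Z2 fullLevel (mu p))),
      loc q (gcl z) = cl q ⟨_, res₂_mem_Z2_of_full p q z.2⟩)
    (i : ∀ q, H q →ₗ[ZMod p] ZMod p)
    (hrec : ∀ x : X, {q | loc q x ≠ 0}.Finite → ∑ᶠ q, i q (loc q x) = 0) :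
    ∃ inv : ∀ q : Nat.Primes,
        (primeLocalGaloisGroup q × primeLocalGaloisGroup q → muLoc p q) →ₗ[ZMod p] ZMod p,
      (∀ (q : Nat.Primes) (z : ↥(Z2 (localLevel (primeLocalToGlobal q)) (muLoc p q))),
        inv q z.1 = i q (cl q z)) ∧
      (∀ (q : Nat.Primes), ∀ f ∈ C1 (localLevel (primeLocalToGlobal q)) (muLoc p q),
        inv q ((d₁₂ (muLoc p q)).hom f) = 0) ∧
      (∀ T : Finset Nat.Primes, pPrime p ∈ T → ∀ z ∈ lev2 p T, (d₂₃ (mu p)).hom z = 0 →
        ∑ q ∈ T, inv q (Base.EvalCup.res₂ (primeLocalToGlobal q) (mu p) z) = 0) := by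
  have key : ∀ q : Nat.Primes, ∃ g :
      (primeLocalGaloisGroup q × primeLocalGaloisGroup q → muLoc p q) →ₗ[ZMod p] ZMod p,
      ∀ z : ↥(Z2 (localLevel (primeLocalToGlobal q)) (muLoc p q)), g z.1 = i q (cl q z) := by
    intro q
    obtain ⟨g, hg⟩ := LinearMap.exists_extend ((i q) ∘ₗ (cl q))
    refine ⟨g, fun z => ?_⟩
    have := congrArg (fun φ => φ z) hg
    simpa using this
  choose inv hinv using key
  refine ⟨inv, hinv, fun q f hf => ?_, fun T hpT z hz hdz => ?_⟩
  · have hz := d₁₂_mem_Z2_muLoc p q hf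
    have h1 := hinv q ⟨_, hz⟩
    rw [hcl q ⟨_, hz⟩ ⟨f, hf, rfl⟩, map_zero] at h1
    exact h1
  · have hzZ : z ∈ Z2 fullLevel (mu p) := ⟨lev2_le_C2_full p T hz, hdz⟩
    have hfin := finite_support_of_formal p loc cl hcl gcl hloc ⟨z, hzZ⟩
    have h0 := hrec (gcl ⟨z, hzZ⟩) hfin
    have hterm : ∀ q : Nat.Primes, i q (loc q (gcl ⟨z, hzZ⟩))
        = inv q (Base.EvalCup.res₂ (primeLocalToGlobal q) (mu p) z) := by
      intro q
      rw [hloc q ⟨z, hzZ⟩]
      exact (hinv q ⟨_, res₂_mem_Z2_of_full p q hzZ⟩).symm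
    rw [← h0]
    symm
    rw [finsum_congr hterm]
    apply finsum_eq_sum_of_support_subset
    intro q hq
    by_contra hqT
    apply hq
    have hB := res₂_mem_B2_of_notMem p hpT hz hdz (fun h => hqT (Finset.mem_coe.2 h))
    have h1 := hinv q ⟨_, res₂_mem_Z2_of_full p q hzZ⟩
    rw [hcl q _ hB, map_zero] at h1
    exact h1

end Generic

/-! ### A concrete choice of classes -/

/-- Global classes: `H²` of full-level cochains of `G_ℚ` with values in `μ_p`. -/
abbrev XQ : Type := H2 fullLevel (mu p)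

/-- Local classes at `q`: `H²` of level cochains of the local group with values in `μ_p`. -/
abbrev HQ (q : Nat.Primes) : Type := H2 (localLevel (primeLocalToGlobal q)) (muLoc p q)

/-- Restriction of classes to the local group at `q`. -/
noncomputable def locQ (q : Nat.Primes) : XQ p →ₗ[ZMod p] HQ p q :=
  subquotMap (Base.EvalCup.res₂ (primeLocalToGlobal q) (mu p))
    (Z2 fullLevel (mu p)) (B2 fullLevel (mu p))
    (Z2 (localLevel (primeLocalToGlobal q)) (muLoc p q))
    (B2 (localLevel (primeLocalToGlobal q)) (muLoc p q))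
    (fun _ hz => res₂_mem_Z2_of_full p q hz) (fun _ _ hz => res₂_mem_B2_of_full p q hz)

theorem locQ_mk (q : Nat.Primes) (z : ↥(Z2 fullLevel (mu p))) :
    locQ p q (Submodule.Quotient.mk z)
      = Submodule.Quotient.mk ⟨_, res₂_mem_Z2_of_full p q z.2⟩ := rfl

/-- Every class of `H²(G_ℚ, μ_p)` is locally trivial at almost all primes. -/
theorem finite_support_locQ (x : XQ p) : {q | locQ p q x ≠ 0}.Finite := by
  obtain ⟨z, rfl⟩ := Submodule.Quotient.mk_surjective _ x
  exact finite_support_of_formal p (locQ p) (fun q => Submodule.mkQ _)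
    (fun q z hz => (Submodule.Quotient.mk_eq_zero _).2 hz)
    (fun z => Submodule.Quotient.mk z) (fun q z => locQ_mk p q z) z

/-- **Reciprocity family from reciprocity on the classes `XQ`, `HQ`, `locQ`.** -/
theorem exists_recFamily_of_locQ
    (i : ∀ q : Nat.Primes, HQ p q →ₗ[ZMod p] ZMod p)
    (hrec : ∀ x : XQ p, ∑ᶠ q, i q (locQ p q x) = 0) :
    ∃ inv : ∀ q : Nat.Primes,
        (primeLocalGaloisGroup q × primeLocalGaloisGroup q → muLoc p q) →ₗ[ZMod p] ZMod p,
      (∀ (q : Nat.Primes) (z : primeLocalGaloisGroup q × primeLocalGaloisGroup q → muLoc p q)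
        (hz : z ∈ Z2 (localLevel (primeLocalToGlobal q)) (muLoc p q)),
        inv q z = i q (Submodule.Quotient.mk ⟨z, hz⟩)) ∧
      (∀ (q : Nat.Primes), ∀ f ∈ C1 (localLevel (primeLocalToGlobal q)) (muLoc p q),
        inv q ((d₁₂ (muLoc p q)).hom f) = 0) ∧
      (∀ T : Finset Nat.Primes, pPrime p ∈ T → ∀ z ∈ lev2 p T, (d₂₃ (mu p)).hom z = 0 →
        ∑ q ∈ T, inv q (Base.EvalCup.res₂ (primeLocalToGlobal q) (mu p) z) = 0) := by
  obtain ⟨inv, h1, h2, h3⟩ := exists_recFamily_of_formal p (locQ p) (fun q => Submodule.mkQ _)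
    (fun q z hz => (Submodule.Quotient.mk_eq_zero _).2 hz)
    (fun z => Submodule.Quotient.mk z) (fun q z => locQ_mk p q z) i (fun x _ => hrec x)
  exact ⟨inv, fun q z hz => h1 q ⟨z, hz⟩, h2, h3⟩

/-- (I4): if `i q` is injective on classes, then a local level 2-cocycle with `inv q z = 0` is
a local level 2-coboundary. -/
theorem mem_B2_of_inv_eq_zero
    (i : ∀ q : Nat.Primes, HQ p q →ₗ[ZMod p] ZMod p)
    (inv : ∀ q : Nat.Primes,
        (primeLocalGaloisGroup q × primeLocalGaloisGroup q → muLoc p q) →ₗ[ZMod p] ZMod p)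
    (hinv : ∀ (q : Nat.Primes) (z : primeLocalGaloisGroup q × primeLocalGaloisGroup q → muLoc p q)
        (hz : z ∈ Z2 (localLevel (primeLocalToGlobal q)) (muLoc p q)),
        inv q z = i q (Submodule.Quotient.mk ⟨z, hz⟩))
    (q : Nat.Primes) (hinj : Function.Injective (i q))
    {z : primeLocalGaloisGroup q × primeLocalGaloisGroup q → muLoc p q}
    (hz : z ∈ Z2 (localLevel (primeLocalToGlobal q)) (muLoc p q)) (h0 : inv q z = 0) :
    z ∈ B2 (localLevel (primeLocalToGlobal q)) (muLoc p q) := by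
  rw [hinv q z hz] at h0
  have h1 : (Submodule.Quotient.mk ⟨z, hz⟩ : HQ p q) = 0 := hinj (by rw [h0, map_zero])
  exact (Submodule.Quotient.mk_eq_zero
    ((B2 (localLevel (primeLocalToGlobal q)) (muLoc p q)).comap
      (Z2 (localLevel (primeLocalToGlobal q)) (muLoc p q)).subtype)).1 h1

/-- A nonzero functional on a space of dimension `≤ 1` is injective. -/
theorem injective_of_finrank_le_one {V : Type*} [AddCommGroup V] [Module (ZMod p) V]
    [Module.Finite (ZMod p) V] (hV : Module.finrank (ZMod p) V ≤ 1) (f : V →ₗ[ZMod p] ZMod p)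
    (hf : f ≠ 0) : Function.Injective f := by
  rw [← LinearMap.ker_eq_bot]
  by_contra hker
  apply hf
  -- the kernel is a nonzero subspace of a space of dimension ≤ 1, hence everything
  have hpos : 0 < Module.finrank (ZMod p) ↥(LinearMap.ker f) := by
    rw [Module.finrank_pos_iff]
    exact Submodule.nontrivial_iff_ne_bot.2 hker
  have hle : Module.finrank (ZMod p) ↥(LinearMap.ker f) ≤ Module.finrank (ZMod p) V :=
    Submodule.finrank_le _
  have htop : LinearMap.ker f = ⊤ :=
    Submodule.eq_top_of_finrank_eq (by omega)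
  exact LinearMap.ker_eq_top.1 htop

end Fermat.Agent.S55.Trace.LamS
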