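/-
`RecFinal`: the REC deliverable from the seven hypotheses of `CFT/Rec/Formal.exists_inv`,
instantiated at the classes `XQ p = H²(G_ℚ, μ_p)` (full level), `HQ p q = H²(G_q, μ_p)`,
`locQ p q` of `Trace/RecClasses`.

`exists_recFamily_of_symbols` : given auxiliary characters `C` with conductor `cond`, Frobenius
values `frob` and symbols `sym c b ∈ XQ p` satisfying `hadd`, `hF1`, `hF3`, `hF4`, `hAUX`,
`hGLOB`, `hTAME` (literally the hypotheses of `Formal.exists_inv` for `loc := locQ p`), there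
is ONE family `inv q` of linear functionals on all local 2-cochains such that
* `inv q` kills coboundaries of level-constant local 1-cochains (`cob`),
* reciprocity holds at every finite level `T ∋ p` (`recip`),
* `inv q` is induced by a NONZERO functional `i q` on the classes `HQ p q`, normalised by the
  unramified symbol formula.
The first two items are the fields of `Wire.IsRecFamily`; hence `lam : LamS p S` exists for
every `S ∋ p` (`Trace/LamClosed.exists_lamS_of_rec`).
-/
import Fermat.Agent.S55.Trace.RecClasses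
import Fermat.Agent.CFT.Rec.Formal

set_option autoImplicit false

open CategoryTheory groupCohomology ExtCitation

namespace Fermat.Agent.S55.Trace.LamS

open Fermat.Agent.S55.Abs Fermat.Agent.CFT.Rec.Formal

variable (p : ℕ) [Fact p.Prime]

/-- **REC-INV from the symbol hypotheses.** -/
theorem exists_recFamily_of_symbols {C : Type*} (cond : C → Nat.Primes)
    (frob : C → Nat.Primes → ZMod p) (sym : C → ℚˣ → XQ p)
    (hadd : ∀ c b b', sym c (b * b') = sym c b + sym c b')
    (hF1 : ∀ c q, q ≠ cond c → ∀ b : ℚˣ, padicValRat (q : ℕ) (b : ℚ) = 0 →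
      locQ p q (sym c b) = 0)
    (hF3 : ∀ c q, q ≠ cond c → frob c q ≠ 0 → locQ p q (sym c (primeUnit q)) ≠ 0)
    (hF4 : ∀ c c' q, q ≠ cond c → q ≠ cond c' → ∀ b,
      frob c q • locQ p q (sym c' b) = frob c' q • locQ p q (sym c b))
    (hAUX : ∀ T : Finset Nat.Primes, ∃ c, cond c ∉ T ∧ ∀ q ∈ T, frob c q ≠ 0)
    (hGLOB : ∀ x c, (∀ q, locQ p q x = 0 ∨ (q ≠ cond c ∧ frob c q ≠ 0)) → ∃ b, x = sym c b)
    (hTAME : ∀ c b, locQ p (cond c) (sym c b) = 0 →
      ∑ᶠ q : Nat.Primes,
        (if q = cond c then 0 else (padicValRat (q : ℕ) (b : ℚ) : ZMod p) * frob c q) = 0) :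
    ∃ (i : ∀ q : Nat.Primes, HQ p q →ₗ[ZMod p] ZMod p)
      (inv : ∀ q : Nat.Primes,
        (primeLocalGaloisGroup q × primeLocalGaloisGroup q → muLoc p q) →ₗ[ZMod p] ZMod p),
      (∀ q, i q ≠ 0) ∧
      (∀ c q, q ≠ cond c → ∀ b : ℚˣ,
        i q (locQ p q (sym c b)) = (padicValRat (q : ℕ) (b : ℚ) : ZMod p) * frob c q) ∧
      (∀ (q : Nat.Primes) (z : primeLocalGaloisGroup q × primeLocalGaloisGroup q → muLoc p q)
        (hz : z ∈ Z2 (localLevel (primeLocalToGlobal q)) (muLoc p q)),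
        inv q z = i q (Submodule.Quotient.mk ⟨z, hz⟩)) ∧
      (∀ (q : Nat.Primes), ∀ f ∈ C1 (localLevel (primeLocalToGlobal q)) (muLoc p q),
        inv q ((d₁₂ (muLoc p q)).hom f) = 0) ∧
      (∀ T : Finset Nat.Primes, pPrime p ∈ T → ∀ z ∈ lev2 p T, (d₂₃ (mu p)).hom z = 0 →
        ∑ q ∈ T, inv q (Base.EvalCup.res₂ (primeLocalToGlobal q) (mu p) z) = 0) := by
  obtain ⟨i, hne, hform, hrec⟩ := exists_inv (p := p) (X := XQ p) (H := HQ p) (locQ p) cond frob sym
    hadd hF1 hF3 hF4 hAUX hGLOB hTAME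
  obtain ⟨inv, h1, h2, h3⟩ := exists_recFamily_of_locQ p i
    (fun x => hrec x (finite_support_locQ p x))
  exact ⟨i, inv, hne, hform, h1, h2, h3⟩

end Fermat.Agent.S55.Trace.LamS
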